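/-
The Euler derivation and the derivative of Laurent series.
-/
import Mathlib.RingTheory.LaurentSeries
import Mathlib.RingTheory.Derivation.Basic

set_option autoImplicit false

noncomputable section

open HahnSeries

namespace Fermat.Agent.Genus

variable {K : Type*} [Field K]

/-- The operator `f ↦ X f'` on Laurent series. -/
def eulerOp (f : LaurentSeries K) : LaurentSeries K where
  coeff n := (n : K) * f.coeff n
  isPWO_support' := f.isPWO_support'.mono fun n hn h => hn (by simp [h])

@[simp]
theorem eulerOp_coeff (f : LaurentSeries K) (n : ℤ) :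
    (eulerOp f).coeff n = (n : K) * f.coeff n := rfl

theorem support_eulerOp_subset (f : LaurentSeries K) : (eulerOp f).support ⊆ f.support :=
  fun n hn h => hn (by simp [h])

theorem eulerOp_add (f g : LaurentSeries K) : eulerOp (f + g) = eulerOp f + eulerOp g := by
  ext n; simp [mul_add]

theorem eulerOp_mul (f g : LaurentSeries K) :
    eulerOp (f * g) = eulerOp f * g + f * eulerOp g := by
  ext n
  rw [eulerOp_coeff, coeff_add, coeff_mul,
    coeff_mul_left' f.isPWO_support (support_eulerOp_subset f),
    coeff_mul_right' g.isPWO_support (support_eulerOp_subset g),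
    Finset.mul_sum, ← Finset.sum_add_distrib]
  refine Finset.sum_congr rfl fun ij hij => ?_
  have h := (Finset.mem_addAntidiagonal.mp hij).2.2
  simp only [eulerOp_coeff]
  rw [← h]; push_cast; ring

theorem eulerOp_single (n : ℤ) (a : K) : eulerOp (single n a) = single n ((n : K) * a) := by
  ext m
  rcases eq_or_ne m n with rfl | h
  · simp
  · simp [coeff_single_of_ne h]

/-- The derivative with respect to `X`, as a multiplicative-compatible map. -/
def deriv (f : LaurentSeries K) : LaurentSeries K := single (-1 : ℤ) 1 * eulerOp f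

theorem deriv_coeff (f : LaurentSeries K) (n : ℤ) :
    (deriv f).coeff n = ((n + 1 : ℤ) : K) * f.coeff (n + 1) := by
  rw [deriv, coeff_single_mul, eulerOp_coeff, one_mul, sub_neg_eq_add]

theorem deriv_add (f g : LaurentSeries K) : deriv (f + g) = deriv f + deriv g := by
  rw [deriv, deriv, deriv, eulerOp_add, mul_add]

theorem deriv_mul (f g : LaurentSeries K) : deriv (f * g) = deriv f * g + f * deriv g := by
  rw [deriv, deriv, deriv, eulerOp_mul]; ring

theorem deriv_C (a : K) : deriv (HahnSeries.C a) = 0 := by
  ext n
  rw [deriv_coeff, HahnSeries.C_apply]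
  rcases eq_or_ne (n + 1) 0 with h | h
  · simp [h]
  · simp [coeff_single_of_ne h]

theorem deriv_single (n : ℤ) (a : K) : deriv (single n a) = single (n - 1) ((n : K) * a) := by
  rw [deriv, eulerOp_single, single_mul_single, one_mul, neg_add_eq_sub]

theorem deriv_ne_zero [CharZero K] {f : LaurentSeries K} (hf : f ≠ 0) (h : f.order ≠ 0) :
    deriv f ≠ 0 := by
  intro h0
  have h1 := deriv_coeff f (f.order - 1)
  rw [h0, HahnSeries.coeff_zero, sub_add_cancel] at h1
  have hne : ((f.order : ℤ) : K) ≠ 0 := by exact_mod_cast h
  exact mul_ne_zero hne (fun hc => hf (HahnSeries.coeff_order_eq_zero.mp hc)) h1.symm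

theorem order_deriv [CharZero K] {f : LaurentSeries K} (hf : f ≠ 0) (h : f.order ≠ 0) :
    (deriv f).order = f.order - 1 := by
  have hd := deriv_ne_zero hf h
  refine le_antisymm (HahnSeries.order_le_of_coeff_ne_zero ?_) ?_
  · rw [deriv_coeff, sub_add_cancel]
    exact mul_ne_zero (by exact_mod_cast h) (fun hc => hf (HahnSeries.coeff_order_eq_zero.mp hc))
  · by_contra hlt
    have hz : f.coeff ((deriv f).order + 1) = 0 :=
      HahnSeries.coeff_eq_zero_of_lt_order (by omega)
    exact hd (HahnSeries.coeff_order_eq_zero.mp (by rw [deriv_coeff, hz, mul_zero]))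

end Fermat.Agent.Genus
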