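/-
Laurent expansion of a function field at a degree one place, and the order of differentials.
-/
import Fermat.Agent.Genus.LaurentDerivation
import Fermat.Prelude.Def_AlgebraicCurve_CanonicalDivisor
import Fermat.Prelude.Def_AlgebraicCurve_IsCurveOver
import Fermat.Prelude.Def_AlgebraicCurve_Repartitions
import Mathlib.RingTheory.Kaehler.Basic
import Mathlib.FieldTheory.IsAlgClosed.Basic
import Mathlib.RingTheory.Localization.FractionRing

set_option autoImplicit false

noncomputable section

open AlgebraicCurve

namespace Fermat.Agent.Genus

variable {K F : Type*} [Field K] [Field F] [Algebra K F]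
variable [IsAlgClosed K] (v : Place K F) [v.FiniteResidue]

theorem residue_algebraMap_bijective :
    Function.Bijective (algebraMap K v.ResidueField) := by
  haveI : Module.Finite K v.ResidueField := Place.FiniteResidue.finite
  exact IsAlgClosed.algebraMap_bijective_of_isIntegral

/-- Value at a place of degree one. -/
def evalPlace : v.toValuationSubring →+* K :=
  ((RingEquiv.ofBijective _ (residue_algebraMap_bijective v)).symm.toRingHom).comp
    (IsLocalRing.residue _)

theorem algebraMap_evalPlace (f : v.toValuationSubring) :
    algebraMap K v.ResidueField (evalPlace v f) = IsLocalRing.residue _ f :=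
  (RingEquiv.ofBijective _ (residue_algebraMap_bijective v)).apply_symm_apply _

@[simp]
theorem evalPlace_algebraMap (a : K) :
    evalPlace v (algebraMap K v.toValuationSubring a) = a := by
  apply (residue_algebraMap_bijective v).1
  rw [algebraMap_evalPlace]
  rfl

theorem sub_evalPlace_mem (f : v.toValuationSubring) :
    f - algebraMap K v.toValuationSubring (evalPlace v f)
      ∈ IsLocalRing.maximalIdeal v.toValuationSubring := by
  rw [← IsLocalRing.residue_eq_zero_iff, map_sub, ← algebraMap_evalPlace, sub_eq_zero]
  rfl

theorem evalPlace_eq_zero_iff (f : v.toValuationSubring) :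
    evalPlace v f = 0 ↔ f ∈ IsLocalRing.maximalIdeal v.toValuationSubring := by
  rw [← IsLocalRing.residue_eq_zero_iff, ← algebraMap_evalPlace v f]
  exact (map_eq_zero_iff _ (residue_algebraMap_bijective v).1).symm

variable {v} {t : v.toValuationSubring} (ht : Irreducible t)

include ht in
theorem exists_tail (f : v.toValuationSubring) :
    ∃ g, f = algebraMap K v.toValuationSubring (evalPlace v f) + t * g := by
  have h := sub_evalPlace_mem v f
  rw [ht.maximalIdeal_eq, Ideal.mem_span_singleton'] at h
  obtain ⟨g, hg⟩ := h
  exact ⟨g, by rw [mul_comm, hg]; ring⟩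

/-- `(f - f(v)) / t`. -/
def tailFun (f : v.toValuationSubring) : v.toValuationSubring := (exists_tail ht f).choose

theorem tailFun_spec (f : v.toValuationSubring) :
    f = algebraMap K v.toValuationSubring (evalPlace v f) + t * tailFun ht f :=
  (exists_tail ht f).choose_spec

theorem tailFun_eq {f g : v.toValuationSubring} {a : K}
    (h : f = algebraMap K v.toValuationSubring a + t * g) :
    evalPlace v f = a ∧ tailFun ht f = g := by
  have ht0 : evalPlace v t = 0 := by
    rw [evalPlace_eq_zero_iff, ht.maximalIdeal_eq]
    exact Ideal.mem_span_singleton_self t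
  have ha : evalPlace v f = a := by rw [h]; simp [ht0]
  refine ⟨ha, mul_left_cancel₀ ht.ne_zero ?_⟩
  have h2 := tailFun_spec ht f
  rw [ha] at h2
  exact add_left_cancel (h2.symm.trans h)

/-- The coefficients of the expansion in powers of `t`. -/
def expCoeff (n : ℕ) (f : v.toValuationSubring) : K := evalPlace v ((tailFun ht)^[n] f)

theorem expCoeff_zero (f : v.toValuationSubring) : expCoeff ht 0 f = evalPlace v f := rfl

theorem expCoeff_succ (n : ℕ) (f : v.toValuationSubring) :
    expCoeff ht (n + 1) f = expCoeff ht n (tailFun ht f) := rfl

theorem tailFun_algebraMap (a : K) : tailFun ht (algebraMap K v.toValuationSubring a) = 0 :=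
  (tailFun_eq ht (g := 0) (a := a) (by simp)).2

theorem tailFun_zero : tailFun ht 0 = 0 := by
  simpa using tailFun_algebraMap ht 0

theorem tailFun_add (f g : v.toValuationSubring) :
    tailFun ht (f + g) = tailFun ht f + tailFun ht g := by
  refine (tailFun_eq ht (a := evalPlace v f + evalPlace v g) ?_).2
  conv_lhs => rw [tailFun_spec ht f, tailFun_spec ht g]
  rw [map_add]; ring

theorem tailFun_smul (a : K) (f : v.toValuationSubring) :
    tailFun ht (algebraMap K _ a * f) = algebraMap K _ a * tailFun ht f := by
  refine (tailFun_eq ht (a := a * evalPlace v f) ?_).2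
  conv_lhs => rw [tailFun_spec ht f]
  rw [map_mul]; ring

theorem expCoeff_add (n : ℕ) : ∀ f g : v.toValuationSubring,
    expCoeff ht n (f + g) = expCoeff ht n f + expCoeff ht n g := by
  induction n with
  | zero => intro f g; simp [expCoeff_zero]
  | succ n ih => intro f g; rw [expCoeff_succ, tailFun_add, ih]; rfl

theorem expCoeff_smul (n : ℕ) : ∀ (a : K) (f : v.toValuationSubring),
    expCoeff ht n (algebraMap K _ a * f) = a * expCoeff ht n f := by
  induction n with
  | zero => intro a f; simp [expCoeff_zero]
  | succ n ih => intro a f; rw [expCoeff_succ, tailFun_smul, ih]; rfl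

theorem tailFun_mul (f g : v.toValuationSubring) :
    tailFun ht (f * g) = algebraMap K _ (evalPlace v f) * tailFun ht g + tailFun ht f * g := by
  refine (tailFun_eq ht (a := evalPlace v f * evalPlace v g) ?_).2
  conv_lhs => rw [tailFun_spec ht f]
  conv_lhs => enter [2]; rw [tailFun_spec ht g]
  conv_rhs => enter [2, 2, 2, 2]; rw [tailFun_spec ht g]
  rw [map_mul]; ring

theorem expansion_split (f : v.toValuationSubring) :
    (PowerSeries.mk fun n => expCoeff ht n f) =
      PowerSeries.C (evalPlace v f)
        + PowerSeries.X * PowerSeries.mk fun n => expCoeff ht n (tailFun ht f) := by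
  ext n
  cases n with
  | zero => simp [expCoeff_zero]
  | succ n => simp [expCoeff_succ]

theorem expCoeff_mul (n : ℕ) : ∀ f g : v.toValuationSubring,
    expCoeff ht n (f * g) =
      PowerSeries.coeff n ((PowerSeries.mk fun i => expCoeff ht i f)
        * PowerSeries.mk fun i => expCoeff ht i g) := by
  induction n with
  | zero =>
    intro f g
    simp [expCoeff_zero, PowerSeries.coeff_zero_eq_constantCoeff]
  | succ n ih =>
    intro f g
    rw [expCoeff_succ, tailFun_mul, expCoeff_add, expCoeff_smul, ih, expansion_split ht f,
      add_mul, map_add, PowerSeries.coeff_C_mul, PowerSeries.coeff_mk, mul_assoc,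
      PowerSeries.coeff_succ_X_mul]
    rfl

theorem expCoeff_algebraMap (n : ℕ) (a : K) :
    expCoeff ht n (algebraMap K v.toValuationSubring a) = if n = 0 then a else 0 := by
  cases n with
  | zero => simp [expCoeff_zero]
  | succ n =>
    rw [expCoeff_succ, tailFun_algebraMap, if_neg (by omega)]
    have h := expCoeff_smul ht n 0 0
    simpa using h

/-- Expansion of a regular function in powers of the uniformizer. -/
def powerExpansion : v.toValuationSubring →+* PowerSeries K where
  toFun f := PowerSeries.mk fun n => expCoeff ht n f
  map_one' := by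
    ext n
    rw [PowerSeries.coeff_mk, ← map_one (algebraMap K v.toValuationSubring),
      expCoeff_algebraMap, PowerSeries.coeff_one]
  map_mul' f g := by
    ext n
    rw [PowerSeries.coeff_mk, expCoeff_mul]
  map_zero' := by
    ext n
    rw [PowerSeries.coeff_mk, ← map_zero (algebraMap K v.toValuationSubring), expCoeff_algebraMap]
    simp
  map_add' f g := by
    ext n
    simp [expCoeff_add]

theorem powerExpansion_algebraMap (a : K) :
    powerExpansion ht (algebraMap K v.toValuationSubring a) = PowerSeries.C a := by
  ext n
  simp [powerExpansion, expCoeff_algebraMap, PowerSeries.coeff_C]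

theorem powerExpansion_self : powerExpansion ht t = PowerSeries.X := by
  have h : t = algebraMap K v.toValuationSubring 0 + t * algebraMap K v.toValuationSubring 1 := by
    simp
  obtain ⟨h1, h2⟩ := tailFun_eq ht h
  show (PowerSeries.mk fun n => expCoeff ht n t) = _
  rw [expansion_split, h1, h2]
  have := powerExpansion_algebraMap ht 1
  rw [show (PowerSeries.mk fun n => expCoeff ht n (algebraMap K v.toValuationSubring 1)) =
    PowerSeries.C 1 from this]
  simp

theorem constantCoeff_powerExpansion (f : v.toValuationSubring) :
    PowerSeries.constantCoeff (powerExpansion ht f) = evalPlace v f := by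
  rw [← PowerSeries.coeff_zero_eq_constantCoeff_apply]
  simp [powerExpansion, expCoeff_zero]

theorem powerExpansion_isUnit {f : v.toValuationSubring} (hf : IsUnit f) :
    PowerSeries.constantCoeff (powerExpansion ht f) ≠ 0 := by
  rw [constantCoeff_powerExpansion]
  exact fun h => ((IsLocalRing.mem_maximalIdeal _).mp ((evalPlace_eq_zero_iff v f).mp h)) hf

theorem powerExpansion_injective : Function.Injective (powerExpansion ht) := by
  rw [injective_iff_map_eq_zero]
  intro f hf
  by_contra h0
  obtain ⟨n, u, hu⟩ := IsDiscreteValuationRing.eq_unit_mul_pow_irreducible h0 ht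
  rw [hu, map_mul, map_pow, powerExpansion_self] at hf
  rcases mul_eq_zero.mp hf with h | h
  · exact powerExpansion_isUnit ht u.isUnit (by rw [h]; simp)
  · exact pow_ne_zero _ PowerSeries.X_ne_zero h

/-- The Laurent expansion of a function at a place of degree one. -/
def laurentExpansion : F →+* LaurentSeries K :=
  IsFractionRing.lift (A := v.toValuationSubring)
    (g := (HahnSeries.ofPowerSeries ℤ K).comp (powerExpansion ht))
    (HahnSeries.ofPowerSeries_injective.comp (powerExpansion_injective ht))

theorem laurentExpansion_coe (f : v.toValuationSubring) :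
    laurentExpansion ht (f : F) = HahnSeries.ofPowerSeries ℤ K (powerExpansion ht f) :=
  IsFractionRing.lift_algebraMap _ f

theorem laurentExpansion_algebraMap (a : K) :
    laurentExpansion ht (algebraMap K F a) = HahnSeries.C a := by
  rw [← v.coe_algebraMap a, laurentExpansion_coe, powerExpansion_algebraMap,
    HahnSeries.ofPowerSeries_C]

theorem laurentExpansion_self : laurentExpansion ht (t : F) = HahnSeries.single 1 1 := by
  rw [laurentExpansion_coe, powerExpansion_self, HahnSeries.ofPowerSeries_X]

theorem single_one_zpow (n : ℤ) :
    (HahnSeries.single (1 : ℤ) (1 : K)) ^ n = HahnSeries.single n 1 := by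
  rcases n with n | n
  · simp [HahnSeries.single_pow]
  · rw [zpow_negSucc, HahnSeries.single_pow, one_pow]
    refine inv_eq_of_mul_eq_one_right ?_
    rw [HahnSeries.single_mul_single, one_mul]
    simp [Int.negSucc_eq]

theorem order_laurentExpansion {f : F} (hf : f ≠ 0) :
    (laurentExpansion ht f).order = v.ord f := by
  obtain ⟨u, hu⟩ := v.exists_unit_mul_zpow hf ht
  have hU : (laurentExpansion ht ((u : v.toValuationSubring) : F)).order = 0 := by
    have hne := powerExpansion_isUnit ht u.isUnit
    rw [laurentExpansion_coe]
    set p := powerExpansion ht (u : v.toValuationSubring) with hp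
    have hc : (HahnSeries.ofPowerSeries ℤ K p).coeff 0 = PowerSeries.constantCoeff p := by
      rw [show (0 : ℤ) = ((0 : ℕ) : ℤ) from rfl, HahnSeries.ofPowerSeries_apply_coeff,
        PowerSeries.coeff_zero_eq_constantCoeff]
    refine le_antisymm (HahnSeries.order_le_of_coeff_ne_zero (by rw [hc]; exact hne)) ?_
    by_contra hlt
    have hne' : HahnSeries.ofPowerSeries ℤ K p ≠ 0 := fun h => hne (by rw [← hc, h]; simp)
    apply hne'
    apply HahnSeries.coeff_order_eq_zero.mp
    rw [HahnSeries.ofPowerSeries_apply]
    refine HahnSeries.embDomain_notin_range ?_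
    rintro ⟨m, hm⟩
    have hm' : (m : ℤ) = (HahnSeries.ofPowerSeries ℤ K p).order := hm
    omega
  have hune : laurentExpansion ht ((u : v.toValuationSubring) : F) ≠ 0 :=
    (map_ne_zero _).mpr (by simp)
  have hz : (laurentExpansion ht (t : F)) ^ v.ord f = HahnSeries.single (v.ord f) 1 := by
    rw [laurentExpansion_self, single_one_zpow]
  conv_lhs => rw [hu, map_mul, map_zpow₀, hz]
  rw [HahnSeries.order_mul hune (by simp), hU, HahnSeries.order_single one_ne_zero, zero_add]

theorem exists_deriv_laurentExpansion {f : F} {ω : F} (h : KaehlerDifferential.D K F f =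
      ω • KaehlerDifferential.D K F (t : F)) :
    deriv (laurentExpansion ht f) = laurentExpansion ht ω := by
  let _ : Algebra F (LaurentSeries K) := (laurentExpansion ht).toAlgebra
  have : IsScalarTower K F (LaurentSeries K) := ⟨fun a b x => by
    show laurentExpansion ht (a • b) * x = a • (laurentExpansion ht b * x)
    rw [Algebra.smul_def, map_mul, laurentExpansion_algebraMap, mul_assoc,
      HahnSeries.C_mul_eq_smul]⟩
  let δ : Derivation K F (LaurentSeries K) := Derivation.mk'
    { toFun := fun g => deriv (laurentExpansion ht g)
      map_add' := fun a b => by rw [map_add, deriv_add]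
      map_smul' := fun a g => by
        show deriv (laurentExpansion ht (a • g)) = a • deriv (laurentExpansion ht g)
        rw [← HahnSeries.C_mul_eq_smul]
        rw [Algebra.smul_def, map_mul, laurentExpansion_algebraMap, deriv_mul, deriv_C, zero_mul,
          zero_add] }
    fun a b => by
      show deriv (laurentExpansion ht (a * b)) = laurentExpansion ht a * _ + laurentExpansion ht b * _
      rw [map_mul, deriv_mul]
      show _ = laurentExpansion ht a * deriv (laurentExpansion ht b)
        + laurentExpansion ht b * deriv (laurentExpansion ht a)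
      ring
  have h2 := congrArg δ.liftKaehlerDifferential h
  rw [map_smul, Derivation.liftKaehlerDifferential_comp_D,
    Derivation.liftKaehlerDifferential_comp_D] at h2
  have hdt : δ (t : F) = 1 := by
    show deriv (laurentExpansion ht (t : F)) = 1
    rw [laurentExpansion_self, deriv_single]
    simp
  rw [hdt] at h2
  refine h2.trans ?_
  show laurentExpansion ht ω * 1 = _
  rw [mul_one]

end Fermat.Agent.Genus
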