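/-
Order of the differential of a function at a place, characteristic zero.
-/
import Fermat.Agent.Genus.Expansion
import Mathlib.LinearAlgebra.Dimension.FreeAndStrongRankCondition

set_option autoImplicit false

noncomputable section

open AlgebraicCurve

namespace Fermat.Agent.Genus

variable {K F : Type*} [Field K] [Field F] [Algebra K F]
variable [IsAlgClosed K] [IsCurveOver K F] (v : Place K F)

theorem dCoord_eq : ∃ π : v.toValuationSubring, Irreducible π ∧
    v.dCoord = KaehlerDifferential.D K F (π : F) :=
  ⟨_, (IsDiscreteValuationRing.exists_irreducible v.toValuationSubring).choose_spec, rfl⟩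

theorem D_irreducible_ne_zero {π : v.toValuationSubring} (hπ : Irreducible π) :
    KaehlerDifferential.D K F (π : F) ≠ 0 := by
  intro h
  have h2 := exists_deriv_laurentExpansion hπ (f := (π : F)) (ω := 0) (by rw [zero_smul, h])
  rw [laurentExpansion_self, map_zero, deriv_single] at h2
  simp at h2

theorem dCoordGenerates : v.DCoordGenerates := by
  obtain ⟨π, hπ, hd⟩ := dCoord_eq v
  have hne : v.dCoord ≠ 0 := hd ▸ D_irreducible_ne_zero v hπ
  refine ⟨eq_top_iff.mpr fun ω _ => Submodule.mem_span_singleton.mpr ?_⟩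
  exact exists_smul_eq_of_finrank_eq_one IsCurveOver.finrank_kaehler hne ω

theorem differentialCoeff_spec (ω : Ω[F⁄K]) : v.differentialCoeff ω • v.dCoord = ω :=
  haveI := dCoordGenerates v
  v.differentialCoeff_smul_dCoord ω

theorem differentialCoeff_ne_zero {ω : Ω[F⁄K]} (hω : ω ≠ 0) : v.differentialCoeff ω ≠ 0 :=
  fun h => hω (by rw [← differentialCoeff_spec v ω, h, zero_smul])

theorem ordDifferential_smul_ne_zero {c : F} (hc : c ≠ 0) {ω : Ω[F⁄K]} (hω : ω ≠ 0) :
    v.ordDifferential (c • ω) = v.ord c + v.ordDifferential ω :=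
  haveI := dCoordGenerates v
  v.ordDifferential_smul hc (differentialCoeff_ne_zero v hω)

variable [CharZero K]

/-- If `ord_v (f - c) = e ≠ 0` then `df ≠ 0` and `ord_v df = e - 1`. -/
theorem ordDifferential_D {f : F} {c : K} (h : v.ord (f - algebraMap K F c) ≠ 0) :
    KaehlerDifferential.D K F f ≠ 0 ∧
    v.ordDifferential (KaehlerDifferential.D K F f) = v.ord (f - algebraMap K F c) - 1 := by
  obtain ⟨π, hπ, hd⟩ := dCoord_eq v
  set g := f - algebraMap K F c with hg
  have hg0 : g ≠ 0 := fun h0 => h (by rw [h0, Place.ord_zero])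
  have hDg : KaehlerDifferential.D K F g = KaehlerDifferential.D K F f := by
    rw [hg, map_sub, Derivation.map_algebraMap, sub_zero]
  set ω := KaehlerDifferential.D K F f with hω
  set a := v.differentialCoeff ω with ha
  have hsp : ω = a • KaehlerDifferential.D K F (π : F) := by
    rw [← hd]; exact (differentialCoeff_spec v ω).symm
  have hder := exists_deriv_laurentExpansion hπ (hDg.trans hsp)
  have hφ0 : laurentExpansion hπ g ≠ 0 := (map_ne_zero _).mpr hg0
  have hord : (laurentExpansion hπ g).order ≠ 0 := by rwa [order_laurentExpansion hπ hg0]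
  have ha0 : a ≠ 0 := by
    intro h0
    rw [h0, map_zero] at hder
    exact deriv_ne_zero hφ0 hord hder
  refine ⟨fun h0 => ha0 ?_, ?_⟩
  · rw [h0] at hsp
    exact ((smul_eq_zero.mp hsp.symm).resolve_right (D_irreducible_ne_zero v hπ))
  · rw [Place.ordDifferential, ← ha, ← order_laurentExpansion hπ ha0, ← hder,
      order_deriv hφ0 hord, order_laurentExpansion hπ hg0]

theorem ordDifferential_D_of_pole {f : F} (h : v.ord f < 0) :
    KaehlerDifferential.D K F f ≠ 0 ∧
    v.ordDifferential (KaehlerDifferential.D K F f) = v.ord f - 1 := by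
  have := ordDifferential_D v (f := f) (c := 0) (by simpa using h.ne)
  simpa using this

/-- Every nonnegative value is attained: a regular function has a value at the place. -/
theorem exists_ord_sub_pos {f : F} (hf : 0 ≤ v.ord f) (hnc : ∀ c : K, f ≠ algebraMap K F c) :
    ∃ c : K, 0 < v.ord (f - algebraMap K F c) := by
  have hmem : f ∈ v.toValuationSubring := by
    rcases eq_or_ne f 0 with rfl | hf0
    · exact zero_mem _
    obtain ⟨π, hπ⟩ := IsDiscreteValuationRing.exists_irreducible v.toValuationSubring
    obtain ⟨u, hu⟩ := v.exists_unit_mul_zpow hf0 hπ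
    rw [hu, show v.ord f = (((v.ord f).toNat : ℕ) : ℤ) from (Int.toNat_of_nonneg hf).symm,
      zpow_natCast]
    exact mul_mem (u : v.toValuationSubring).2 (pow_mem (π : v.toValuationSubring).2 _)
  refine ⟨evalPlace v ⟨f, hmem⟩, ?_⟩
  set c := evalPlace v ⟨f, hmem⟩
  have hmem' := sub_evalPlace_mem v ⟨f, hmem⟩
  have hne : f - algebraMap K F c ≠ 0 := sub_ne_zero.mpr (hnc c)
  obtain ⟨π, hπ⟩ := IsDiscreteValuationRing.exists_irreducible v.toValuationSubring
  rw [hπ.maximalIdeal_eq, Ideal.mem_span_singleton'] at hmem'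
  obtain ⟨g, hg⟩ := hmem'
  have hg' : (g : F) * (π : F) = f - algebraMap K F c := congrArg Subtype.val hg
  have hg0 : (g : F) ≠ 0 := fun h => hne (by rw [← hg', h, zero_mul])
  have hgn : 0 ≤ v.ord (g : F) := by
    have := v.adicValuation_le_one_of_mem g.2
    rcases (v.adicValuation_le_one_iff).mp this with h | h
    · exact absurd h hg0
    · exact h
  rw [← hg', v.ord_mul hg0 (by simpa using hπ.ne_zero), v.ord_coe_irreducible hπ]
  omega

end Fermat.Agent.Genus
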