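/-
Orbit counts of two permutations and of their product: Scott's inequality and the sign parity,
i.e. the genus of a transitive triple of permutations is a natural number.
-/
import Mathlib.GroupTheory.Perm.Cycle.Type
import Mathlib.LinearAlgebra.Dual.Lemmas
import Mathlib.LinearAlgebra.Dimension.Constructions
import Mathlib.Algebra.Module.Prod
import Mathlib.Data.Rat.Cast.Defs

set_option autoImplicit false

noncomputable section

namespace Fermat.Agent.Genus

open Equiv

variable {X : Type*}

/-- The number of orbits of the group generated by a permutation. -/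
def cycleCount (σ : Perm X) : ℕ := Nat.card (Quotient (Perm.SameCycle.setoid σ))

theorem cycleCount_eq_card_add [Fintype X] [DecidableEq X] (σ : Perm X) :
    cycleCount σ = σ.cycleFactorsFinset.card + Nat.card {x // σ x = x} := by
  classical
  let f : Quotient (Perm.SameCycle.setoid σ) → σ.cycleFactorsFinset ⊕ {x // σ x = x} :=
    Quotient.lift
      (fun x => if h : σ x = x then Sum.inr ⟨x, h⟩ else
        Sum.inl ⟨σ.cycleOf x, Perm.cycleOf_mem_cycleFactorsFinset_iff.mpr
          (Perm.mem_support.mpr h)⟩)
      (fun x y (hxy : σ.SameCycle x y) => by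
        by_cases h : σ x = x
        · have : x = y := hxy.eq_of_left h
          subst this; rfl
        · have h' : ¬ σ y = y := fun h' => h (by have := hxy.eq_of_right h'; subst this; exact h')
          simp only [dif_neg h, dif_neg h']
          exact congrArg Sum.inl (Subtype.ext hxy.cycleOf_eq))
  have hf : Function.Bijective f := by
    constructor
    · rintro ⟨x⟩ ⟨y⟩ h
      apply Quotient.sound
      show σ.SameCycle x y
      change (dite _ _ _) = (dite _ _ _) at h
      by_cases h1 : σ x = x <;> by_cases h2 : σ y = y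
      · rw [dif_pos h1, dif_pos h2] at h
        rw [show x = y from congrArg Subtype.val (Sum.inr.inj h)]
      · rw [dif_pos h1, dif_neg h2] at h
        exact absurd h Sum.inr_ne_inl
      · rw [dif_neg h1, dif_pos h2] at h
        exact absurd h Sum.inl_ne_inr
      · rw [dif_neg h1, dif_neg h2] at h
        replace h : σ.cycleOf x = σ.cycleOf y := congrArg Subtype.val (Sum.inl.inj h)
        have hy : y ∈ (σ.cycleOf x).support := by
          rw [h, Perm.mem_support_cycleOf_iff]
          exact ⟨Perm.SameCycle.rfl, Perm.mem_support.mpr h2⟩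
        exact (Perm.mem_support_cycleOf_iff.mp hy).1
    · rintro (⟨c, hc⟩ | ⟨x, hx⟩)
      · obtain ⟨a, ha⟩ := (Perm.mem_cycleFactorsFinset_iff.mp hc).1.nonempty_support
        refine ⟨Quotient.mk _ a, ?_⟩
        have ha' : ¬ σ a = a := by
          rw [← (Perm.mem_cycleFactorsFinset_iff.mp hc).2 a ha]
          exact Perm.mem_support.mp ha
        show dite _ _ _ = _
        rw [dif_neg ha']
        exact congrArg Sum.inl (Subtype.ext (Perm.cycle_is_cycleOf ha hc).symm)
      · exact ⟨Quotient.mk _ x, dif_pos hx⟩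
  rw [cycleCount, Nat.card_congr (Equiv.ofBijective f hf), Nat.card_sum]
  simp

theorem sign_eq_pow_cycleCount [Fintype X] [DecidableEq X] (σ : Perm X) :
    Perm.sign σ = (-1) ^ (Fintype.card X + cycleCount σ) := by
  have hfix : Nat.card {x // σ x = x} = Fintype.card X - σ.support.card := by
    rw [Nat.card_eq_fintype_card, Fintype.card_subtype,
      show (Finset.univ.filter fun x => σ x = x) = σ.supportᶜ by
        ext x; simp [Perm.mem_support], Finset.card_compl]
  have hle := σ.support.card_le_univ
  rw [Perm.sign_of_cycleType, Perm.sum_cycleType, Perm.cycleType_def, Multiset.card_map,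
    cycleCount_eq_card_add, hfix]
  rw [show Fintype.card X + (σ.cycleFactorsFinset.card + (Fintype.card X - σ.support.card))
    = (σ.support.card + σ.cycleFactorsFinset.card)
      + 2 * (Fintype.card X - σ.support.card) by omega, pow_add (-1 : ℤˣ) _ (2 * _), pow_mul]
  simp

/-- Parity. -/
theorem even_add_cycleCount [Fintype X] (σ τ : Perm X) :
    Even (Fintype.card X + cycleCount σ + cycleCount τ + cycleCount (σ * τ)) := by
  classical
  have h := Perm.sign_mul σ τ
  rw [sign_eq_pow_cycleCount, sign_eq_pow_cycleCount, sign_eq_pow_cycleCount] at h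
  have h2 : ((-1 : ℤˣ)) ^ ((Fintype.card X + cycleCount (σ * τ))
      + ((Fintype.card X + cycleCount σ) + (Fintype.card X + cycleCount τ))) = 1 := by
    rw [pow_add, h, ← pow_add, ← pow_add, neg_one_pow_eq_one_iff_even (by decide : (-1 : ℤˣ) ≠ 1)]
    exact ⟨_, rfl⟩
  rw [neg_one_pow_eq_one_iff_even (by decide : (-1 : ℤˣ) ≠ 1)] at h2
  obtain ⟨k, hk⟩ := h2
  exact ⟨k - Fintype.card X, by omega⟩

/-- The operator `f ↦ f - f ∘ σ`. -/
def diffOp (σ : Perm X) : (X → ℚ) →ₗ[ℚ] (X → ℚ) := LinearMap.id - LinearMap.funLeft ℚ ℚ σ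

theorem diffOp_apply (σ : Perm X) (f : X → ℚ) (x : X) : diffOp σ f x = f x - f (σ x) := rfl

theorem mem_ker_diffOp (σ : Perm X) (f : X → ℚ) :
    f ∈ LinearMap.ker (diffOp σ) ↔ ∀ x, f (σ x) = f x := by
  rw [LinearMap.mem_ker, funext_iff]
  exact forall_congr' fun x => by rw [diffOp_apply, Pi.zero_apply, sub_eq_zero, eq_comm]

/-- Invariant functions are the functions on the orbits. -/
def kerDiffOpEquiv [Finite X] (σ : Perm X) :
    LinearMap.ker (diffOp σ) ≃ₗ[ℚ] (Quotient (Perm.SameCycle.setoid σ) → ℚ) where
  toFun f := Quotient.lift (f : X → ℚ) (fun x y (h : σ.SameCycle x y) => by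
    obtain ⟨i, _, rfl⟩ := h.exists_pow_eq'
    clear h
    induction i with
    | zero => rfl
    | succ i ih =>
      rw [pow_succ', Perm.mul_apply, (mem_ker_diffOp σ _).mp f.2]
      exact ih (by omega))
  map_add' f g := by funext q; induction q using Quotient.inductionOn; rfl
  map_smul' c f := by funext q; induction q using Quotient.inductionOn; rfl
  invFun g := ⟨fun x => g (Quotient.mk _ x), (mem_ker_diffOp σ _).mpr fun x =>
    congrArg g (Quotient.sound (Perm.sameCycle_apply_left.mpr Perm.SameCycle.rfl))⟩
  left_inv f := rfl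
  right_inv g := by funext q; induction q using Quotient.inductionOn; rfl

theorem finrank_ker_diffOp [Finite X] (σ : Perm X) :
    Module.finrank ℚ (LinearMap.ker (diffOp σ)) = cycleCount σ := by
  classical
  cases nonempty_fintype X
  haveI : Fintype (Quotient (Perm.SameCycle.setoid σ)) := Fintype.ofFinite _
  rw [(kerDiffOpEquiv σ).finrank_eq, Module.finrank_fintype_fun_eq_card, cycleCount,
    Nat.card_eq_fintype_card]

theorem finrank_range_diffOp [Fintype X] (σ : Perm X) :
    Module.finrank ℚ (LinearMap.range (diffOp σ)) + cycleCount σ = Fintype.card X := by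
  rw [← finrank_ker_diffOp σ, LinearMap.finrank_range_add_finrank_ker,
    Module.finrank_fintype_fun_eq_card]

/-- Scott's inequality for two permutations whose common invariant functions are constant. -/
theorem cycleCount_add_le [Fintype X] [Nonempty X] (σ τ : Perm X)
    (htrans : ∀ f : X → ℚ, (∀ x, f (σ x) = f x) → (∀ x, f (τ x) = f x) → ∀ x y, f x = f y) :
    cycleCount σ + cycleCount τ + cycleCount (τ * σ) ≤ Fintype.card X + 2 := by
  classical
  set W1 := LinearMap.range (diffOp σ) with hW1
  set W2 := LinearMap.range (diffOp τ) with hW2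
  have hone : Module.finrank ℚ ↥(ℚ ∙ (fun _ : X => (1 : ℚ))) ≤ 1 := by
    rw [finrank_span_singleton (fun h => one_ne_zero (congrFun h (Classical.arbitrary X)))]
  have hann : Module.finrank ℚ (W1 ⊔ W2).dualAnnihilator ≤ 1 := by
    let ev : Module.Dual ℚ (X → ℚ) →ₗ[ℚ] (X → ℚ) :=
      { toFun := fun φ x => φ (Pi.single x 1)
        map_add' := fun _ _ => rfl
        map_smul' := fun _ _ => rfl }
    have hinj : Function.Injective (ev.domRestrict (W1 ⊔ W2).dualAnnihilator) := by
      intro φ ψ h
      apply Subtype.ext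
      apply LinearMap.pi_ext'
      intro x
      apply LinearMap.ext_ring
      exact congrFun h x
    have hle : LinearMap.range (ev.domRestrict (W1 ⊔ W2).dualAnnihilator)
        ≤ ℚ ∙ (fun _ : X => (1 : ℚ)) := by
      rintro _ ⟨⟨φ, hφ⟩, rfl⟩
      have key : ∀ (π : Perm X), LinearMap.range (diffOp π) ≤ W1 ⊔ W2 →
          ∀ x, φ (Pi.single (π x) 1) = φ (Pi.single x 1) := by
        intro π hπ x
        have h := (Submodule.mem_dualAnnihilator φ).mp hφ _ (hπ ⟨Pi.single (π x) 1, rfl⟩)
        have h' : diffOp π (Pi.single (π x) 1) = Pi.single (π x) (1 : ℚ) - Pi.single x 1 := by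
          funext y
          simp only [diffOp_apply, Pi.sub_apply, Pi.single_apply, π.injective.eq_iff]
        rw [h', map_sub, sub_eq_zero] at h
        exact h
      have hc := htrans (fun x => φ (Pi.single x 1)) (key σ le_sup_left) (key τ le_sup_right)
      refine Submodule.mem_span_singleton.mpr ⟨φ (Pi.single (Classical.arbitrary X) 1), ?_⟩
      funext y
      simpa [ev] using hc (Classical.arbitrary X) y
    rw [← LinearMap.finrank_range_of_inj hinj]
    exact le_trans (Submodule.finrank_mono hle) hone
  have hdual := Subspace.finrank_add_finrank_dualAnnihilator_eq (W1 ⊔ W2)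
  rw [Module.finrank_fintype_fun_eq_card] at hdual
  let β : (W1 × W2) →ₗ[ℚ] (X → ℚ) :=
    W1.subtype.coprod ((LinearMap.funLeft ℚ ℚ σ).comp W2.subtype)
  have hrangeβ : W1 ⊔ W2 ≤ LinearMap.range β := by
    refine sup_le (fun u hu => ⟨(⟨u, hu⟩, 0), by simp [β]⟩) (fun w hw => ?_)
    refine ⟨(⟨diffOp σ w, LinearMap.mem_range_self _ w⟩, ⟨w, hw⟩), ?_⟩
    funext x
    simp [β, diffOp_apply, LinearMap.funLeft_apply]
  let γ : LinearMap.ker (diffOp (τ * σ)) →ₗ[ℚ] (W1 × W2) :=
    ((diffOp σ).rangeRestrict.prod (diffOp τ).rangeRestrict).domRestrict _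
  have hγ : LinearMap.range γ ≤ LinearMap.ker β := by
    rintro _ ⟨⟨v, hv⟩, rfl⟩
    rw [LinearMap.mem_ker]
    funext x
    have := (mem_ker_diffOp _ v).mp hv x
    simp only [Perm.mul_apply] at this
    simp [β, γ, diffOp_apply, LinearMap.funLeft_apply, this]
  have hkerγ : Module.finrank ℚ (LinearMap.ker γ) ≤ 1 := by
    refine le_trans ?_ hone
    rw [(Submodule.equivMapOfInjective _ (Submodule.injective_subtype _)
      (LinearMap.ker γ)).finrank_eq]
    refine Submodule.finrank_mono ?_
    rintro _ ⟨⟨v, hv⟩, hk, rfl⟩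
    have hk' : γ ⟨v, hv⟩ = 0 := hk
    have h1 : diffOp σ v = 0 := congrArg (fun p : W1 × W2 => (p.1 : X → ℚ)) hk'
    have h2 : diffOp τ v = 0 := congrArg (fun p : W1 × W2 => (p.2 : X → ℚ)) hk'
    have hc := htrans v ((mem_ker_diffOp σ v).mp h1) ((mem_ker_diffOp τ v).mp h2)
    refine Submodule.mem_span_singleton.mpr ⟨v (Classical.arbitrary X), ?_⟩
    funext y
    simpa using hc (Classical.arbitrary X) y
  have e1 := LinearMap.finrank_range_add_finrank_ker β
  have e2 := LinearMap.finrank_range_add_finrank_ker γ
  have e3 := Submodule.finrank_mono hγ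
  have e4 := Submodule.finrank_mono hrangeβ
  rw [Module.finrank_prod] at e1
  rw [finrank_ker_diffOp] at e2
  have r1 : Module.finrank ℚ W1 + cycleCount σ = Fintype.card X := finrank_range_diffOp σ
  have r2 : Module.finrank ℚ W2 + cycleCount τ = Fintype.card X := finrank_range_diffOp τ
  omega

end Fermat.Agent.Genus
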