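/-
The genus formula for `Γ₀(N)` is a natural number.
-/
import Fermat.Agent.Genus.Permutation
import Fermat.Agent.Gamma0.Elliptic
import Fermat.Agent.Gamma0.Cusps
import Mathlib.LinearAlgebra.Matrix.FixedDetMatrices
import Mathlib.GroupTheory.GroupAction.Basic

set_option autoImplicit false

noncomputable section

namespace Fermat.Agent.Genus

open Matrix Matrix.SpecialLinearGroup CongruenceSubgroup ModularCurve
open scoped MatrixGroups
open ModularGroup (S T)

variable {G X : Type*} [Group G] [MulAction G X]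

theorem card_orbits_zpowers (g : G) :
    Nat.card (MulAction.orbitRel.Quotient (Subgroup.zpowers g) X) =
      cycleCount (MulAction.toPerm g : Equiv.Perm X) := by
  refine Nat.card_congr (Quotient.congr (Equiv.refl X) fun x y => ?_)
  change x ∈ MulAction.orbit (Subgroup.zpowers g) y ↔
    (MulAction.toPerm g : Equiv.Perm X).SameCycle x y
  have hpow : ∀ (k : ℤ) (z : X), ((MulAction.toPerm g : Equiv.Perm X) ^ k) z = g ^ k • z := by
    intro k z
    rw [show (MulAction.toPerm g : Equiv.Perm X) = MulAction.toPermHom G X g from rfl,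
      ← map_zpow]
    rfl
  rw [Equiv.Perm.sameCycle_comm]
  constructor
  · rintro ⟨⟨_, k, rfl⟩, rfl⟩
    exact ⟨k, hpow k y⟩
  · rintro ⟨k, hk⟩
    exact ⟨⟨g ^ k, k, rfl⟩, ((hpow k y).symm.trans hk)⟩

theorem exists_genusFormula_eq (N : ℕ) [NeZero N] : ∃ g : ℕ, (g : ℚ) = genusFormula N := by
  classical
  haveI : Finite (Gamma0.Coset N) := Nat.finite_of_card_ne_zero (by
    rw [Gamma0.card_coset]; exact (Gamma0.dedekindPsi_pos N).ne')
  haveI : Fintype (Gamma0.Coset N) := Fintype.ofFinite _
  haveI : Nonempty (Gamma0.Coset N) := ⟨Gamma0.mk N 1⟩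
  set σ : Equiv.Perm (Gamma0.Coset N) := MulAction.toPerm S with hσ
  set τ : Equiv.Perm (Gamma0.Coset N) := MulAction.toPerm T with hτ
  have htrans : ∀ f : Gamma0.Coset N → ℚ, (∀ x, f (σ x) = f x) → (∀ x, f (τ x) = f x) →
      ∀ x y, f x = f y := by
    intro f hS hT
    have key : ∀ g : SL(2, ℤ), ∀ x, f (g • x) = f x := by
      intro g
      have hg : g ∈ Subgroup.closure ({S, T} : Set SL(2, ℤ)) := by
        rw [SpecialLinearGroup.SL2Z_generators]; trivial
      induction hg using Subgroup.closure_induction with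
      | mem a ha =>
        rcases ha with rfl | rfl
        · exact hS
        · exact hT
      | one => intro x; rw [one_smul]
      | mul a b _ _ ha hb => intro x; rw [mul_smul, ha, hb]
      | inv a _ ha => intro x; rw [← ha (a⁻¹ • x), smul_inv_smul]
    intro x y
    obtain ⟨g, rfl⟩ := MulAction.exists_smul_eq SL(2, ℤ) x y
    exact (key g x).symm
  have h1 := cycleCount_add_le σ τ htrans
  have h2 := even_add_cycleCount τ σ
  have hmul : τ * σ = MulAction.toPerm (T * S) := by
    ext x; exact (mul_smul T S x).symm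
  have hn : Fintype.card (Gamma0.Coset N) = dedekindPsi N := by
    rw [← Nat.card_eq_fintype_card, Gamma0.card_coset]
  have a1 := Gamma0.two_mul_card_orbits_S N
  have a2 := Gamma0.three_mul_card_orbits_TS N
  have a3 := Gamma0.card_cuspOrbit N
  have o1 := card_orbits_zpowers (X := Gamma0.Coset N) S
  have o2 := card_orbits_zpowers (X := Gamma0.Coset N) (T * S)
  have o3 := card_orbits_zpowers (X := Gamma0.Coset N) T
  rw [Gamma0.card_coset] at a1 a2
  erw [o1, ← hσ] at a1
  erw [o2, ← hmul] at a2
  erw [o3, ← hτ] at a3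
  rw [hn] at h1 h2
  obtain ⟨k, hk⟩ := h2
  set c1 := cycleCount σ
  set c2 := cycleCount (τ * σ)
  set c3 := cycleCount τ
  refine ⟨dedekindPsi N + 1 - k, ?_⟩
  rw [Nat.cast_sub (by omega), genusFormula, ← a3]
  have e1 : (2 * c1 : ℚ) = dedekindPsi N + nuTwo N := by exact_mod_cast a1
  have e2 : (3 * c2 : ℚ) = dedekindPsi N + 2 * nuThree N := by exact_mod_cast a2
  have e4 : (dedekindPsi N : ℚ) + c3 + c1 + c2 = k + k := by exact_mod_cast hk
  push_cast
  linarith

end Fermat.Agent.Genus
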