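/-
Riemann–Hurwitz: the degree of the divisor of `dx`, and the genus of the curve.
-/
import Fermat.Agent.Genus.Differential
import Mathlib.Data.Finset.Card
import Mathlib.RingTheory.Algebraic.Basic

set_option autoImplicit false

noncomputable section

open AlgebraicCurve

namespace Fermat.Agent.Genus

variable {K F : Type*} [Field K] [Field F] [Algebra K F]
variable [IsAlgClosed K] [IsCurveOver K F]

theorem degree_eq_sum (D : Divisor K F) {s : Finset (Place K F)} (hs : D.support ⊆ s) :
    Divisor.degree D = ∑ v ∈ s, D v := by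
  rw [Divisor.degree, Finsupp.liftAddHom_apply, Finsupp.sum_of_support_subset _ hs _ (by simp)]
  simp [IsCurveOver.deg_eq_one_of_isAlgClosed]

/-- The zeros of `f` with multiplicity are as many as its poles. -/
theorem sum_ord_pos_eq {f : F} (hf : f ≠ 0) {s t : Finset (Place K F)}
    (hs : ∀ v, v ∈ s ↔ 0 < v.ord f) (ht : ∀ v, v ∈ t ↔ v.ord f < 0) :
    ∑ v ∈ s, v.ord f = ∑ v ∈ t, -v.ord f := by
  classical
  obtain ⟨D, hD, hdeg⟩ := HasPrincipalDivisors.exists_divisor (K := K) f hf
  have hsub : D.support ⊆ s ∪ t := by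
    intro v hv
    rw [Finsupp.mem_support_iff, hD] at hv
    rw [Finset.mem_union, hs, ht]
    omega
  have hdisj : Disjoint s t := Finset.disjoint_left.mpr fun v h1 h2 => by
    rw [hs] at h1; rw [ht] at h2; omega
  rw [degree_eq_sum D hsub, Finset.sum_union hdisj] at hdeg
  simp only [hD] at hdeg
  rw [Finset.sum_neg_distrib]
  omega

theorem finite_setOf_ord_pos {f : F} (hf : f ≠ 0) :
    {v : Place K F | 0 < v.ord f}.Finite := by
  obtain ⟨D, hD, -⟩ := HasPrincipalDivisors.exists_divisor (K := K) f hf
  refine D.support.finite_toSet.subset fun v hv => ?_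
  simp only [Finset.mem_coe, Finsupp.mem_support_iff, hD]
  exact hv.ne'

theorem sum_ord_neg_finite {f : F} (hf : f ≠ 0) :
    {v : Place K F | v.ord f < 0}.Finite := by
  refine (finite_setOf_ord_pos (K := K) (inv_ne_zero hf)).subset fun v hv => ?_
  simp only [Set.mem_setOf_eq, Place.ord_inv] at hv ⊢
  omega

theorem ord_le_zero_of_ord_sub_pos (v : Place K F) {x : F} {c : K}
    (h : 0 < v.ord (x - algebraMap K F c)) : 0 ≤ v.ord x := by
  by_contra hx
  have hx' : x ∉ v.toValuationSubring := by
    intro hmem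
    rcases (v.adicValuation_le_one_iff).mp (v.adicValuation_le_one_of_mem hmem) with h0 | h0
    · rw [h0, Place.ord_zero] at hx; omega
    · omega
  apply hx'
  have hne : x - algebraMap K F c ≠ 0 := fun h0 => by rw [h0, Place.ord_zero] at h; omega
  obtain ⟨π, hπ⟩ := IsDiscreteValuationRing.exists_irreducible v.toValuationSubring
  obtain ⟨u, hu⟩ := v.exists_unit_mul_zpow hne hπ
  have hmem : x - algebraMap K F c ∈ v.toValuationSubring := by
    rw [hu, show v.ord (x - algebraMap K F c) =
      (((v.ord (x - algebraMap K F c)).toNat : ℕ) : ℤ) from (Int.toNat_of_nonneg h.le).symm,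
      zpow_natCast]
    exact mul_mem (u : v.toValuationSubring).2 (pow_mem (π : v.toValuationSubring).2 _)
  simpa using add_mem hmem (v.algebraMap_mem' c)

theorem eq_of_ord_sub_pos (v : Place K F) {x : F} {c c' : K}
    (h : 0 < v.ord (x - algebraMap K F c)) (h' : 0 < v.ord (x - algebraMap K F c')) :
    c = c' := by
  by_contra hne
  have key : ∀ y : F, 0 < v.ord y → v.adicValuation y < 1 := by
    intro y hy
    have hy0 : y ≠ 0 := fun h0 => by rw [h0, Place.ord_zero] at hy; omega
    rw [v.adicValuation_eq_exp_neg_ord hy0, ← WithZero.exp_zero, WithZero.exp_lt_exp]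
    omega
  have hlt := (v.adicValuation.map_sub (x - algebraMap K F c') (x - algebraMap K F c)).trans_lt
    (max_lt (key _ h') (key _ h))
  rw [show x - algebraMap K F c' - (x - algebraMap K F c) = algebraMap K F (c - c') by
    rw [map_sub]; ring] at hlt
  have hinv := v.adicValuation_algebraMap_le_one (c - c')⁻¹
  have hmul : v.adicValuation (algebraMap K F (c - c'))
      * v.adicValuation (algebraMap K F (c - c')⁻¹) = 1 := by
    rw [← map_mul, ← map_mul, mul_inv_cancel₀ (sub_ne_zero.mpr hne), map_one, map_one]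
  exact (mul_le_of_le_one_right' hinv).not_gt (by rwa [hmul])

theorem ord_sub_const_of_neg (v : Place K F) {x : F} (hv : v.ord x < 0) (c : K) :
    v.ord (x - algebraMap K F c) = v.ord x := by
  have hx0 : x ≠ 0 := fun h0 => by rw [h0, Place.ord_zero] at hv; omega
  have hxc : x - algebraMap K F c ≠ 0 := by
    intro h
    rw [sub_eq_zero] at h
    have hle := (v.adicValuation_le_one_iff).mp (v.adicValuation_algebraMap_le_one c)
    rw [← h] at hle
    rcases hle with h0 | h0
    · exact hx0 h0
    · omega
  have hlt : v.adicValuation (algebraMap K F c) < v.adicValuation x :=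
    (v.adicValuation_algebraMap_le_one c).trans_lt
      (not_le.mp (v.not_adicValuation_le_one_iff.mpr hv))
  have h := v.adicValuation.map_sub_eq_of_lt_left hlt
  rw [v.adicValuation_eq_exp_neg_ord hxc, v.adicValuation_eq_exp_neg_ord hx0] at h
  exact neg_injective (WithZero.exp_injective h)

variable [CharZero K]

/-- Riemann–Hurwitz for `x`, with branch points among `crit` and `∞`. -/
theorem degree_canonical_of_D [DecidableEq K] {x : F} (hx : Transcendental K x) {D : Divisor K F}
    (hD : ∀ v : Place K F, D v = v.ordDifferential (KaehlerDifferential.D K F x))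
    (crit : Finset K) (n : ℕ) (P : K → Finset (Place K F)) (Pinf : Finset (Place K F))
    (hP : ∀ c v, v ∈ P c ↔ 0 < v.ord (x - algebraMap K F c))
    (hinf : ∀ v, v ∈ Pinf ↔ v.ord x < 0)
    (hn : ∑ v ∈ Pinf, -v.ord x = n)
    (hunram : ∀ c, c ∉ crit → ∀ v ∈ P c, v.ord (x - algebraMap K F c) = 1) :
    Divisor.degree D = (∑ c ∈ crit, ((n : ℤ) - (P c).card)) - n - Pinf.card := by
  classical
  have hnc : ∀ c : K, x ≠ algebraMap K F c := fun c h => hx (h ▸ isAlgebraic_algebraMap c)
  have hdisj : ∀ c c', c ≠ c' → Disjoint (P c) (P c') := fun c c' hne =>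
    Finset.disjoint_left.mpr fun v h h' =>
      hne (eq_of_ord_sub_pos v ((hP c v).mp h) ((hP c' v).mp h'))
  have hDfin : ∀ c, ∀ v ∈ P c, D v = v.ord (x - algebraMap K F c) - 1 := by
    intro c v hv
    have hpos := (hP c v).mp hv
    rw [hD, (ordDifferential_D v (c := c) hpos.ne').2]
  have hDinf : ∀ v ∈ Pinf, D v = v.ord x - 1 := by
    intro v hv
    rw [hD, (ordDifferential_D_of_pole v ((hinf v).mp hv)).2]
  have hcount : ∀ c, ∑ v ∈ P c, v.ord (x - algebraMap K F c) = (n : ℤ) := by
    intro c
    rw [sum_ord_pos_eq (sub_ne_zero.mpr (hnc c)) (hP c) (t := Pinf), ← hn]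
    · exact Finset.sum_congr rfl fun v hv => by
        rw [ord_sub_const_of_neg v ((hinf v).mp hv) c]
    · intro v
      rw [hinf]
      refine ⟨fun hv => (ord_sub_const_of_neg v hv c).trans_lt hv, fun hv => ?_⟩
      have h := ord_sub_const_of_neg v hv (-c)
      rw [map_neg, sub_neg_eq_add, sub_add_cancel] at h
      omega
  set S := crit.biUnion P ∪ Pinf with hS
  have hsub : D.support ⊆ S := by
    intro v hv
    rw [Finsupp.mem_support_iff] at hv
    rw [hS, Finset.mem_union, Finset.mem_biUnion]
    by_cases hneg : v.ord x < 0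
    · exact Or.inr ((hinf v).mpr hneg)
    · left
      obtain ⟨c, hc⟩ := exists_ord_sub_pos v (not_lt.mp hneg) hnc
      refine ⟨c, ?_, (hP c v).mpr hc⟩
      by_contra hcrit
      apply hv
      rw [hDfin c v ((hP c v).mpr hc), hunram c hcrit v ((hP c v).mpr hc), sub_self]
  have hd2 : Disjoint (crit.biUnion P) Pinf := by
    rw [Finset.disjoint_left]
    intro v hv hv'
    obtain ⟨c, -, hc⟩ := Finset.mem_biUnion.mp hv
    have := ord_le_zero_of_ord_sub_pos v ((hP c v).mp hc)
    have := (hinf v).mp hv'
    omega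
  rw [degree_eq_sum D hsub, hS, Finset.sum_union hd2,
    Finset.sum_biUnion fun c _ c' _ h => hdisj c c' h]
  rw [Finset.sum_congr rfl fun c _ => (Finset.sum_congr rfl (hDfin c)),
    Finset.sum_congr rfl hDinf]
  have hn' : ∑ v ∈ Pinf, v.ord x = -(n : ℤ) := by
    rw [Finset.sum_neg_distrib] at hn; omega
  simp only [Finset.sum_sub_distrib, hcount, Finset.sum_const, nsmul_eq_mul, mul_one, hn']
  ring

omit [CharZero K] in
/-- The genus is computed by any non-zero differential. -/
theorem genus_eq_of_differential [HasCanonicalDivisor (K := K) (F := F)] {ω : Ω[F⁄K]} (hω : ω ≠ 0) :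
    AlgebraicCurve.genus K F = (Divisor.degree (canonicalDivisorOf hω) + 2).toNat / 2 := by
  classical
  have hex : ∃ ω : Ω[F⁄K], ω ≠ 0 := ⟨ω, hω⟩
  rw [AlgebraicCurve.genus, dif_pos hex]
  suffices Divisor.degree (canonicalDivisorOf hex.choose_spec)
      = Divisor.degree (canonicalDivisorOf hω) by rw [this]
  obtain ⟨f, hf⟩ := exists_smul_eq_of_finrank_eq_one IsCurveOver.finrank_kaehler hω hex.choose
  have hf0 : f ≠ 0 := fun h => hex.choose_spec (by rw [← hf, h, zero_smul])
  obtain ⟨E, hE, hEdeg⟩ := HasPrincipalDivisors.exists_divisor (K := K) f hf0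
  have : canonicalDivisorOf hex.choose_spec = E + canonicalDivisorOf hω := by
    ext v
    rw [Finsupp.add_apply, canonicalDivisorOf_apply, canonicalDivisorOf_apply, hE,
      ← ordDifferential_smul_ne_zero v hf0 hω, hf]
  rw [this, map_add, hEdeg, zero_add]

end Fermat.Agent.Genus
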