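/-
Riemann-Hurwitz for a curve whose ramification is known after an extension of the constants.
-/
import Fermat.Agent.Genus.Formula
import Fermat.Agent.Curve.ConstExtPlace
import Mathlib.Data.Set.Card

set_option autoImplicit false

noncomputable section

open AlgebraicCurve

namespace Fermat.Agent.Genus

open Fermat.Agent.Curve

universe uK uF uΩ uE

variable {K : Type uK} {F : Type uF} {Ω : Type uΩ} {E : Type uE}
  [Field K] [Field F] [Field Ω] [Field E]
  [Algebra K F] [Algebra K Ω] [Algebra K E] [Algebra F E] [Algebra Ω E]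
  [IsScalarTower K F E] [IsScalarTower K Ω E]
  [IsAlgClosed K] [IsCurveOver K F] [IsConstExt K F Ω E]

theorem setOf_ord_pos_eq_image (f : F) :
    {w : Place Ω E | 0 < w.ord (algebraMap F E f)} =
      placeExt Ω E '' {v : Place K F | 0 < v.ord f} := by
  ext w
  simp only [Set.mem_setOf_eq, Set.mem_image]
  constructor
  · intro hw
    rcases exists_eq_placeExt_or (K := K) (F := F) w with ⟨v, rfl⟩ | h
    · exact ⟨v, by rwa [ord_placeExt] at hw, rfl⟩
    · rw [ord_algebraMap_eq_zero_of_forall_mem h f] at hw; omega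
  · rintro ⟨v, hv, rfl⟩
    rwa [ord_placeExt]

theorem ncard_setOf_ord_pos (f : F) :
    {w : Place Ω E | 0 < w.ord (algebraMap F E f)}.ncard =
      {v : Place K F | 0 < v.ord f}.ncard := by
  rw [setOf_ord_pos_eq_image (K := K), Set.ncard_image_of_injective _ placeExt_injective]

theorem setOf_ord_neg_eq {K' F' : Type*} [Field K'] [Field F'] [Algebra K' F'] (f : F') :
    {v : Place K' F' | v.ord f < 0} = {v : Place K' F' | 0 < v.ord f⁻¹} := by
  ext v; simp [Place.ord_inv]

theorem ncard_setOf_ord_neg (f : F) :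
    {w : Place Ω E | w.ord (algebraMap F E f) < 0}.ncard =
      {v : Place K F | v.ord f < 0}.ncard := by
  rw [setOf_ord_neg_eq, setOf_ord_neg_eq, ← map_inv₀, ncard_setOf_ord_pos (K := K)]

/-- The degree of `div dx`, from the fibres of `x` on the extended curve. -/
theorem degree_canonical_of_ext [CharZero K] [DecidableEq K] {x : F} (hx : Transcendental K x)
    [HasCanonicalDivisor (K := K) (F := F)] (crit : Finset K) (n cinf : ℕ) (cnt : K → ℕ)
    (hn : ∀ s : Finset (Place K F), (∀ v, v ∈ s ↔ v.ord x < 0) → ∑ v ∈ s, -v.ord x = n)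
    (hunram : ∀ c, c ∉ crit → ∀ w : Place Ω E,
      0 < w.ord (algebraMap F E x - algebraMap Ω E (algebraMap K Ω c)) →
      w.ord (algebraMap F E x - algebraMap Ω E (algebraMap K Ω c)) = 1)
    (hcnt : ∀ c ∈ crit, {w : Place Ω E |
      0 < w.ord (algebraMap F E x - algebraMap Ω E (algebraMap K Ω c))}.ncard = cnt c)
    (hinf : {w : Place Ω E | w.ord (algebraMap F E x) < 0}.ncard = cinf) :
    ∃ (ω : Ω[F⁄K]) (hω : ω ≠ 0), Divisor.degree (canonicalDivisorOf hω) =
      (∑ c ∈ crit, ((n : ℤ) - cnt c)) - n - cinf ∨ (n = 0 ∧ cinf = 0) := by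
  classical
  have hx0 : x ≠ 0 := fun h => hx (h ▸ isAlgebraic_zero)
  have hmap : ∀ c : K, algebraMap F E (x - algebraMap K F c) =
      algebraMap F E x - algebraMap Ω E (algebraMap K Ω c) := by
    intro c
    rw [map_sub, ← IsScalarTower.algebraMap_apply, ← IsScalarTower.algebraMap_apply]
  have hne : ∀ c : K, x - algebraMap K F c ≠ 0 := fun c h =>
    hx (sub_eq_zero.mp h ▸ isAlgebraic_algebraMap c)
  set P : K → Finset (Place K F) := fun c => (finite_setOf_ord_pos (hne c)).toFinset with hP
  set Pinf : Finset (Place K F) := (sum_ord_neg_finite hx0).toFinset with hPinf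
  have hPmem : ∀ c v, v ∈ P c ↔ 0 < v.ord (x - algebraMap K F c) := by simp [hP]
  have hImem : ∀ v, v ∈ Pinf ↔ v.ord x < 0 := by simp [hPinf]
  have hcard : Pinf.card = cinf := by
    rw [← hinf, ncard_setOf_ord_neg (K := K), ← Set.ncard_coe_finset]
    congr 1
    ext v; simp [hImem]
  rcases Pinf.eq_empty_or_nonempty with hemp | ⟨v, hv⟩
  · by_cases hex : ∃ ω : Ω[F⁄K], ω ≠ 0
    · obtain ⟨ω, hω⟩ := hex
      refine ⟨ω, hω, Or.inr ⟨?_, ?_⟩⟩
      · have := hn Pinf hImem
        rw [hemp, Finset.sum_empty] at this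
        exact_mod_cast this.symm
      · rw [← hcard, hemp, Finset.card_empty]
    · exact absurd (exists_ne (0 : Ω[F⁄K])) hex
  · obtain ⟨hdx, -⟩ := ordDifferential_D_of_pole v ((hImem v).mp hv)
    refine ⟨_, hdx, Or.inl ?_⟩
    rw [degree_canonical_of_D hx (canonicalDivisorOf_apply hdx) crit n P Pinf hPmem hImem
      (hn Pinf hImem) ?_, hcard]
    · congr 2
      refine Finset.sum_congr rfl fun c hc => ?_
      rw [← hcnt c hc]
      congr 2
      rw [← hmap, ncard_setOf_ord_pos (K := K), ← Set.ncard_coe_finset]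
      congr 1
      ext v; simp [hPmem]
    · intro c hc v hv
      have h := hunram c hc (placeExt Ω E v)
      rw [← hmap, ord_placeExt] at h
      exact h ((hPmem c v).mp hv)

/-- A sum over the poles can be computed on the extended curve. -/
theorem sum_neg_ord_eq_ext (f : F) {s : Finset (Place K F)} {t : Finset (Place Ω E)}
    (hs : ∀ v, v ∈ s ↔ v.ord f < 0) (ht : ∀ w, w ∈ t ↔ w.ord (algebraMap F E f) < 0) :
    ∑ v ∈ s, -v.ord f = ∑ w ∈ t, -w.ord (algebraMap F E f) := by
  classical
  have himg : t = s.image (placeExt Ω E) := by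
    ext w
    rw [ht, Finset.mem_image]
    constructor
    · intro hw
      rcases exists_eq_placeExt_or (K := K) (F := F) w with ⟨v, rfl⟩ | h
      · exact ⟨v, (hs v).mpr (by rwa [ord_placeExt] at hw), rfl⟩
      · rw [ord_algebraMap_eq_zero_of_forall_mem h f] at hw; omega
    · rintro ⟨v, hv, rfl⟩
      rw [ord_placeExt]; exact (hs v).mp hv
  rw [himg, Finset.sum_image fun a _ b _ h => placeExt_injective h]
  exact Finset.sum_congr rfl fun v _ => by rw [ord_placeExt]

end Fermat.Agent.Genus
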