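/-
The genus of the arithmetic modular curve `X₀(N)` over the algebraic numbers.
-/
import Fermat.Agent.Genus.Transfer
import Fermat.Agent.Genus.GenusNat
import Fermat.Agent.Curve.BasicModular
import Fermat.Agent.Curve.ConstExtMk
import Fermat.Agent.Places.Gamma0
import Fermat.Agent.Galois.QbarInstances
import Fermat.Prelude.Def_ModularCurve_ArithmeticGalois

set_option autoImplicit false

noncomputable section

open AlgebraicCurve ModularCurve CongruenceSubgroup

namespace Fermat.Agent.Genus

open IntermediateField in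
theorem jqModC_mem_bar (N : ℕ) :
    jqModC (AlgebraicClosure ℚ) ∈ modularFunctionFieldBar N := by
  have h := coeffEmb_mem_laurentBaseChange (AlgebraicClosure ℚ)
    (jqd_mem_full N (d := 1) (one_dvd N))
  rwa [qExpand_one_apply, ← jqModC_rat, coeffEmb, coeffMap_jqModC] at h

theorem jqNModC_mem_bar (N : ℕ) [NeZero N] :
    jqNModC (AlgebraicClosure ℚ) N ∈ modularFunctionFieldBar N := by
  have h := coeffEmb_mem_laurentBaseChange (AlgebraicClosure ℚ) (jqd_mem_full N (dvd_refl N))
  rwa [← jqModC_rat, show qExpand ℚ N (jqModC ℚ) = jqNModC ℚ N from rfl, coeffEmb,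
    coeffMap_jqNModC] at h

/-- The degree of the canonical divisor of `X₀(N)` is `2 g - 2`. -/
theorem exists_degree_canonical_eq (N : ℕ) [NeZero N]
    [HasCanonicalDivisor (K := AlgebraicClosure ℚ) (F := ↥(modularFunctionFieldBar N))] :
    ∃ (ω : Ω[↥(modularFunctionFieldBar N)⁄(AlgebraicClosure ℚ)]) (hω : ω ≠ 0),
      ((Divisor.degree (canonicalDivisorOf hω) : ℤ) : ℚ) = 2 * genusFormula N - 2 := by
  classical
  obtain ⟨ι⟩ : Nonempty (AlgebraicClosure ℚ →+* ℂ) :=
    ⟨(IsAlgClosed.lift : AlgebraicClosure ℚ →ₐ[ℚ] ℂ).toRingHom⟩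
  letI algQC : Algebra (AlgebraicClosure ℚ) ℂ := ι.toAlgebra
  letI : Algebra ↥(modularFunctionFieldBar N) ↥(modularFunctionFieldC ℂ N) :=
    (ModFun.barToC N ι).toAlgebra
  letI algKE : Algebra (AlgebraicClosure ℚ) ↥(modularFunctionFieldC ℂ N) :=
    ((algebraMap ℂ ↥(modularFunctionFieldC ℂ N)).comp ι).toAlgebra
  haveI : IsScalarTower (AlgebraicClosure ℚ) ↥(modularFunctionFieldBar N)
      ↥(modularFunctionFieldC ℂ N) := by
    refine IsScalarTower.of_algebraMap_eq fun a => Subtype.ext ?_
    show algebraMap ℂ (LaurentSeries ℂ) (ι a) =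
      coeffMap ι (algebraMap (AlgebraicClosure ℚ) (LaurentSeries (AlgebraicClosure ℚ)) a)
    rw [algebraMap_laurentSeries_eq_single, algebraMap_laurentSeries_eq_single, coeffMap_single]
  haveI : IsScalarTower (AlgebraicClosure ℚ) ℂ ↥(modularFunctionFieldC ℂ N) :=
    IsScalarTower.of_algebraMap_eq fun _ => rfl
  let x : ↥(modularFunctionFieldBar N) := ⟨jqModC (AlgebraicClosure ℚ), jqModC_mem_bar N⟩
  let M := Places.x0Model N
  have hxM : algebraMap ↥(modularFunctionFieldBar N) ↥(modularFunctionFieldC ℂ N) x = M.jF :=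
    Subtype.ext (coeffMap_jqModC ι)
  have hx : Transcendental (AlgebraicClosure ℚ) x := fun h =>
    ModFun.transcendental_jqModC (AlgebraicClosure ℚ)
      (h.algHom (modularFunctionFieldBar N).val)
  haveI : Module.Finite (IntermediateField.adjoin (AlgebraicClosure ℚ) {x})
      ↥(modularFunctionFieldBar N) := Curve.finite_adjoin_of_transcendental hx
  haveI : Curve.IsConstExt (AlgebraicClosure ℚ) ↥(modularFunctionFieldBar N) ℂ
      ↥(modularFunctionFieldC ℂ N) := by
    refine Curve.IsConstExt.of_transcendental x ?_ ?_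
    · rw [hxM]
      exact fun h => ModFun.transcendental_jqModC ℂ (h.algHom (modularFunctionFieldC ℂ N).val)
    · apply IntermediateField.lift_injective (modularFunctionFieldC ℂ N)
      rw [IntermediateField.lift_top, IntermediateField.lift_adjoin]
      refine le_antisymm ?_ (IntermediateField.adjoin_le_iff.mpr ?_)
      · rw [IntermediateField.adjoin_le_iff]
        rintro _ ⟨y, -, rfl⟩
        exact y.2
      · rintro _ (rfl | rfl)
        · refine IntermediateField.subset_adjoin _ _ ⟨M.jF, ⟨x, hxM⟩, rfl⟩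
        · refine IntermediateField.subset_adjoin _ _ ⟨⟨_, jqNModC_mem ℂ N⟩,
            ⟨⟨_, jqNModC_mem_bar N⟩, Subtype.ext (coeffMap_jqNModC ι N)⟩, rfl⟩
  have hidx : (Gamma0 N).index = dedekindPsi N := Gamma0.index_Gamma0 N
  haveI : (Gamma0 N).FiniteIndex := ⟨by rw [hidx]; exact (Gamma0.dedekindPsi_pos N).ne'⟩
  have hn : ∀ s : Finset (Place (AlgebraicClosure ℚ) ↥(modularFunctionFieldBar N)),
      (∀ v, v ∈ s ↔ v.ord x < 0) → ∑ v ∈ s, -v.ord x = (dedekindPsi N : ℤ) := by
    intro s hs
    have hs' : ({w : Place ℂ ↥(modularFunctionFieldC ℂ N) | w.ord M.jF < 0}).Finite := by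
      haveI := M.isFunctionFieldOne
      exact (Curve.finite_setOf_ord_ne_zero (K := ℂ) M.jF).subset fun w hw => ne_of_lt hw
    rw [sum_neg_ord_eq_ext (Ω := ℂ) (E := ↥(modularFunctionFieldC ℂ N)) x hs
      (t := hs'.toFinset) (by simp [hxM]), hxM, ← hidx, ← M.sum_ord_jF_neg,
      finsum_eq_sum_of_support_subset _ (s := hs'.toFinset) ?_]
    · refine Finset.sum_congr rfl fun w hw => ?_
      simp only [Set.Finite.mem_toFinset, Set.mem_setOf_eq] at hw
      omega
    · intro w hw
      simp only [Function.mem_support, ne_eq] at hw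
      simp only [Set.Finite.coe_toFinset, Set.mem_setOf_eq]
      omega
  let cnt : AlgebraicClosure ℚ → ℕ := fun c =>
    if c = 0 then Nat.card (MulAction.orbitRel.Quotient
      (Subgroup.zpowers (ModularGroup.S * ModularGroup.T)) (Gamma0.Coset N))
    else Nat.card (MulAction.orbitRel.Quotient
      (Subgroup.zpowers ModularGroup.S) (Gamma0.Coset N))
  have hunram : ∀ c : AlgebraicClosure ℚ, c ∉ ({0, 1728} : Finset (AlgebraicClosure ℚ)) →
      ∀ w : Place ℂ ↥(modularFunctionFieldC ℂ N),
      0 < w.ord (algebraMap ↥(modularFunctionFieldBar N) ↥(modularFunctionFieldC ℂ N) x -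
        algebraMap ℂ _ (algebraMap (AlgebraicClosure ℚ) ℂ c)) →
      w.ord (algebraMap ↥(modularFunctionFieldBar N) ↥(modularFunctionFieldC ℂ N) x -
        algebraMap ℂ _ (algebraMap (AlgebraicClosure ℚ) ℂ c)) = 1 := by
    intro c hc w hw
    rw [hxM] at hw ⊢
    simp only [Finset.mem_insert, Finset.mem_singleton, not_or] at hc
    have hle := M.ord_jF_sub_le_one w (c := algebraMap (AlgebraicClosure ℚ) ℂ c)
      ((map_ne_zero_iff _ (RingHom.injective _)).mpr hc.1)
      (fun h => hc.2 (RingHom.injective (algebraMap (AlgebraicClosure ℚ) ℂ)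
        (by rw [h, map_ofNat])))
    omega
  have hcnt : ∀ c ∈ ({0, 1728} : Finset (AlgebraicClosure ℚ)),
      {w : Place ℂ ↥(modularFunctionFieldC ℂ N) | 0 < w.ord
        (algebraMap ↥(modularFunctionFieldBar N) ↥(modularFunctionFieldC ℂ N) x -
          algebraMap ℂ _ (algebraMap (AlgebraicClosure ℚ) ℂ c))}.ncard = cnt c := by
    intro c hc
    rw [hxM]
    simp only [Finset.mem_insert, Finset.mem_singleton] at hc
    rcases hc with rfl | rfl
    · simp only [cnt, if_pos rfl, map_zero, sub_zero]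
      exact M.card_fiber_zero
    · simp only [cnt, if_neg (show (1728 : AlgebraicClosure ℚ) ≠ 0 by norm_num), map_ofNat]
      rw [← map_ofNat (algebraMap ℂ ↥(modularFunctionFieldC ℂ N)) 1728]
      exact M.card_fiber_1728
  have hinf : {w : Place ℂ ↥(modularFunctionFieldC ℂ N) | w.ord
      (algebraMap ↥(modularFunctionFieldBar N) ↥(modularFunctionFieldC ℂ N) x) < 0}.ncard =
        cuspCount N := by
    rw [hxM]
    exact (M.card_fiber_infty).trans (Gamma0.card_cuspOrbit N)
  obtain ⟨ω, hω, h⟩ := degree_canonical_of_ext (Ω := ℂ) (E := ↥(modularFunctionFieldC ℂ N)) hx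
    {0, 1728} (dedekindPsi N) (cuspCount N) cnt hn hunram hcnt hinf
  refine ⟨ω, hω, ?_⟩
  rcases h with h | ⟨h, -⟩
  swap
  · exact absurd h (Gamma0.dedekindPsi_pos N).ne'
  rw [h]
  have h1728 : (1728 : AlgebraicClosure ℚ) ≠ 0 := by norm_num
  rw [Finset.sum_pair h1728.symm]
  simp only [cnt, if_neg h1728, if_pos rfl]
  have e1 := Gamma0.two_mul_card_orbits_S N
  have e2 := Gamma0.three_mul_card_orbits_ST N
  rw [Gamma0.card_coset] at e1 e2
  set a := Nat.card (MulAction.orbitRel.Quotient
    (Subgroup.zpowers ModularGroup.S) (Gamma0.Coset N))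
  set b := Nat.card (MulAction.orbitRel.Quotient
    (Subgroup.zpowers (ModularGroup.S * ModularGroup.T)) (Gamma0.Coset N))
  have e1' : (2 * a : ℚ) = dedekindPsi N + nuTwo N := by exact_mod_cast e1
  have e2' : (3 * b : ℚ) = dedekindPsi N + 2 * nuThree N := by exact_mod_cast e2
  rw [genusFormula]
  push_cast
  linarith

theorem genus_modularFunctionFieldBar (N : ℕ) [NeZero N]
    [HasCanonicalDivisor (K := AlgebraicClosure ℚ) (F := ↥(modularFunctionFieldBar N))] :
    (AlgebraicCurve.genus (AlgebraicClosure ℚ) ↥(modularFunctionFieldBar N) : ℚ) =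
      genusFormula N := by
  obtain ⟨ω, hω, h⟩ := exists_degree_canonical_eq N
  obtain ⟨g, hg⟩ := exists_genusFormula_eq N
  rw [← hg] at h
  have h' : Divisor.degree (canonicalDivisorOf hω) = 2 * (g : ℤ) - 2 := by exact_mod_cast h
  rw [genus_eq_of_differential hω, h', ← hg]
  congr 1
  omega

end Fermat.Agent.Genus
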